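import Fermat.Agent.EllP.NodeBridge
import Fermat.Agent.EllP.Stable
import Fermat.Agent.EllTorsion.Galois
import Fermat.Prelude.Def_EllipticCurve_ZeroComponentAt

/-!
# Mazur's chain: local lemmas at a place

`e0At` and `e1At` are the nonsingular reduction part and the kernel of reduction at a place, as
subgroups of the geometric points. Proved: `E₁` has no prime-to-`q` torsion
(`eq_zero_of_mem_e1At`), inertia at a semistable place acts unipotently on `p`-power torsion
(`smul_sub_smul_sub`), and Frobenius fixes at most `q² + 1` prime-to-`q` torsion points of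
nonsingular reduction (`natCard_le_sq_succ`).
-/

set_option autoImplicit false

noncomputable section

open WeierstrassCurve WeierstrassCurve.Affine.Point
open scoped WeierstrassCurve.Affine Pointwise

namespace FLTAgent.MazurChain

local notation "Qb" => AlgebraicClosure ℚ
local notation "GQ" => (AlgebraicClosure ℚ ≃ₐ[ℚ] AlgebraicClosure ℚ)

variable (W : WeierstrassCurve ℤ) (A : ValuationSubring Qb)

/-- The points in the zero component at a place. -/
def e0At : AddSubgroup (EllP.QPoint W) :=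
  (EllLocal.E0 A (EllP.modelAt A W)).comap (EllP.toModel A).toAddMonoidHom

/-- The points in the kernel of reduction at a place. -/
def e1At : AddSubgroup (EllP.QPoint W) :=
  (EllLocal.E1 A (EllP.modelAt A W)).comap (EllP.toModel A).toAddMonoidHom

variable {W A}

theorem mem_e0At {P : EllP.QPoint W} :
    P ∈ e0At W A ↔ EllP.toModel A P ∈ EllLocal.E0 A (EllP.modelAt A W) := Iff.rfl

theorem mem_e1At {P : EllP.QPoint W} :
    P ∈ e1At W A ↔ EllP.InFormalAt A P := EllP.mem_E1_iff A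

theorem e1At_le_e0At : e1At W A ≤ e0At W A := fun _ h => EllLocal.E1_le_E0 h

theorem redCurve_modelAt :
    EllLocal.redCurve A (EllP.modelAt A W) =
      (W.map (Int.castRingHom (IsLocalRing.ResidueField A))).toAffine := by
  show ((W.map (Int.castRingHom A)).map (IsLocalRing.residue A)).toAffine = _
  rw [WeierstrassCurve.map_map]
  congr 2

/-- `InZeroComponentAt` is membership of `E₀`. -/
theorem inZeroComponentAt_iff {P : EllP.QPoint W} :
    W.InZeroComponentAt A P ↔ P ∈ e0At W A := by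
  constructor
  · rintro (rfl | ⟨x, y, h, rfl, hx | ⟨hx, hy, hns⟩⟩)
    · exact zero_mem _
    · exact e1At_le_e0At (mem_e1At.mpr (Or.inr hx))
    · rw [mem_e0At]
      erw [EllP.toModel_some]
      refine Or.inr ⟨⟨x, hx⟩, ⟨y, hy⟩, ⟨(EllP.genCurve_modelAt A W).symm ▸ h, rfl⟩, ?_⟩
      rw [redCurve_modelAt]
      exact hns
  · intro h
    rcases P with _ | ⟨x, y, hxy⟩
    · exact Or.inl rfl
    refine Or.inr ⟨x, y, hxy, rfl, ?_⟩
    rw [mem_e0At] at h
    erw [EllP.toModel_some] at h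
    rcases h with h | ⟨a, b, ⟨_, hl⟩, hns⟩
    · exact Or.inl h
    · simp only [Affine.Point.some.injEq] at hl
      obtain ⟨rfl, rfl⟩ := hl
      rw [redCurve_modelAt] at hns
      exact Or.inr ⟨a.2, b.2, hns⟩

theorem smul_mem_e1At {σ : GQ} (hσ : σ ∈ A.decompositionSubgroup ℚ) {P : EllP.QPoint W}
    (hP : P ∈ e1At W A) : σ • P ∈ e1At W A := by
  rw [mem_e1At] at hP ⊢
  rcases hP with rfl | hP
  · exact Or.inl (smul_zero (A := EllP.QPoint W) σ)
  · refine Or.inr fun h => hP ?_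
    rw [EllP.xCoord_smul] at h
    have h1 : σ⁻¹ • σ (EllP.xCoord P) ∈ σ⁻¹ • A :=
      ValuationSubring.smul_mem_pointwise_smul _ _ _ h
    rw [MulAction.mem_stabilizer_iff.mp (inv_mem hσ)] at h1
    rwa [show σ⁻¹ • σ (EllP.xCoord P) = EllP.xCoord P from inv_smul_smul σ _] at h1

variable {q : ℕ}

theorem mem_e0At_of_good (hq : q.Prime) (hA : A.LiesOverPrime q) (hqΔ : ¬ (q : ℤ) ∣ W.Δ)
    (P : EllP.QPoint W) : P ∈ e0At W A :=
  EllLocal.mem_E0_of_good (by rw [map_Δ]; exact EllP.residue_map_ne_zero hq hA hqΔ) _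

theorem natCast_pow_residue_ne_zero (hq : q.Prime) (hA : A.LiesOverPrime q) {p : ℕ} (hp : p.Prime)
    (hqp : q ≠ p) (n : ℕ) : ((p ^ n : ℕ) : IsLocalRing.ResidueField A) ≠ 0 := by
  rw [Nat.cast_pow]
  exact pow_ne_zero _ (EllP.natCast_residue_ne_zero hq hA hp hqp)

/-- `E₁` has no prime-to-`q` torsion. -/
theorem eq_zero_of_mem_e1At (hq : q.Prime) (hA : A.LiesOverPrime q) {p : ℕ} (hp : p.Prime)
    (hqp : q ≠ p) {P : EllP.QPoint W} (hP : P ∈ e1At W A) {n : ℕ} (h0 : p ^ n • P = 0) :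
    P = 0 := by
  refine (EllP.toModel A).injective ?_
  rw [_root_.map_zero]
  exact EllLocal.eq_zero_of_nsmul_eq_zero hP (natCast_pow_residue_ne_zero hq hA hp hqp n)
    (by rw [← map_nsmul, h0, _root_.map_zero])

theorem smul_sub_mem_e1At (hq : q.Prime) (hA : A.LiesOverPrime q) {σ : GQ}
    (hσ : σ ∈ A.inertiaSubgroupIn ℚ) {P : EllP.QPoint W} (hP : P ∈ e0At W A) :
    σ • P - P ∈ e1At W A :=
  EllP.smul_sub_mem_E1 A hq hA hσ hP

theorem smul_nsmul_point (σ : GQ) (n : ℕ) (P : EllP.QPoint W) : σ • n • P = n • σ • P :=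
  (DistribSMul.toAddMonoidHom (EllP.QPoint W) σ).map_nsmul n P

theorem nsmul_smul_sub {σ : GQ} {P : EllP.QPoint W} {n : ℕ} (h : n • P = 0) :
    n • (σ • P - P) = 0 := by
  rw [nsmul_sub, ← smul_nsmul_point, h, smul_zero (A := EllP.QPoint W) σ, sub_zero]

/-- Inertia moves torsion of odd order into `E₀` at a semistable place. -/
theorem smul_sub_mem_e0At (hq : q.Prime) (hA : A.LiesOverPrime q) (hΔ : W.Δ ≠ 0)
    (hss : (q : ℤ) ∣ W.Δ → ¬(q : ℤ) ∣ W.c₄) {σ : GQ} (hσ : σ ∈ A.inertiaSubgroupIn ℚ)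
    {P : EllP.QPoint W} {n : ℕ} (hn : Odd n) (hP : n • P = 0) : σ • P - P ∈ e0At W A :=
  EllP.inertiaMovesIntoE0_of_semistable hq hA hΔ hss hn σ hσ
    ⟨P, by rw [Submodule.mem_torsionBy_iff, natCast_zsmul]; exact hP⟩

/-- Inertia away from `p` fixes `p`-power torsion of `E₀`. -/
theorem smul_eq_self_of_mem_e0At (hq : q.Prime) (hA : A.LiesOverPrime q) {p : ℕ} (hp : p.Prime)
    (hqp : q ≠ p) {σ : GQ} (hσ : σ ∈ A.inertiaSubgroupIn ℚ) {P : EllP.QPoint W}
    (hP : P ∈ e0At W A) {n : ℕ} (h0 : p ^ n • P = 0) : σ • P = P :=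
  sub_eq_zero.mp (eq_zero_of_mem_e1At hq hA hp hqp (smul_sub_mem_e1At hq hA hσ hP)
    (nsmul_smul_sub h0))

/-- Inertia away from `p` acts unipotently on `p`-power torsion. -/
theorem smul_sub_smul_sub (hq : q.Prime) (hA : A.LiesOverPrime q) (hΔ : W.Δ ≠ 0)
    (hss : (q : ℤ) ∣ W.Δ → ¬(q : ℤ) ∣ W.c₄) {p : ℕ} (hp : p.Prime) (hp2 : p ≠ 2) (hqp : q ≠ p)
    {σ : GQ} (hσ : σ ∈ A.inertiaSubgroupIn ℚ) {P : EllP.QPoint W} {n : ℕ} (h0 : p ^ n • P = 0) :
    σ • (σ • P - P) - (σ • P - P) = 0 :=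
  sub_eq_zero.mpr (smul_eq_self_of_mem_e0At hq hA hp hqp hσ
    (smul_sub_mem_e0At hq hA hΔ hss hσ ((hp.odd_of_ne_two hp2).pow) h0) (nsmul_smul_sub h0))

open Polynomial in
/-- Frobenius fixes at most `q² + 1` prime-to-`q` torsion points of nonsingular reduction. -/
theorem natCard_le_sq_succ (hq : q.Prime) (hA : A.LiesOverPrime q) {p : ℕ} (hp : p.Prime)
    (hqp : q ≠ p) {σ : GQ} (hσ : A.IsFrobeniusAt σ q) {n : ℕ} (S : Set (EllP.QPoint W))
    (hS : ∀ P ∈ S, p ^ n • P = 0 ∧ P ∈ e0At W A ∧ σ • P = P) :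
    Nat.card S ≤ q ^ 2 + 1 := by
  classical
  set k := IsLocalRing.ResidueField A
  set T : Finset k := (X ^ q - X : k[X]).roots.toFinset with hT
  have hne : (X ^ q - X : k[X]) ≠ 0 := FiniteField.X_pow_card_sub_X_ne_zero k hq.one_lt
  have hTcard : T.card ≤ q := (Multiset.toFinset_card_le _).trans
    ((card_roots' _).trans (FiniteField.X_pow_card_sub_X_natDegree_eq k hq.one_lt).le)
  have hfix : ∀ a : A, σ (a : Qb) = a → IsLocalRing.residue A a ∈ T := by
    intro a ha
    have h := (GalCommon.isFrobeniusAt_iff.mp hσ).2 _ a.2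
    rw [ha] at h
    have h' : ((a - a ^ q : A) : Qb) ∈ A.nonunits := by push_cast; exact h
    rw [GalCommon.coe_mem_nonunits_iff_residue, map_sub, map_pow, sub_eq_zero] at h'
    rw [hT, Multiset.mem_toFinset, mem_roots', IsRoot.def]
    exact ⟨hne, by simp [← h']⟩
  have hlift : ∀ P ∈ S, P ≠ 0 → ∃ a b : A, EllLocal.IsLift (EllP.toModel A P) a b ∧
      (EllLocal.redCurve A (EllP.modelAt A W)).Nonsingular (IsLocalRing.residue A a)
        (IsLocalRing.residue A b) ∧ IsLocalRing.residue A a ∈ T ∧ IsLocalRing.residue A b ∈ T := by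
    intro P hP hP0
    obtain ⟨hn, h0, hfixP⟩ := hS P hP
    rcases h0 with h1 | ⟨a, b, hl, hns⟩
    · exact absurd (eq_zero_of_mem_e1At hq hA hp hqp h1 hn) hP0
    obtain ⟨hn', rfl⟩ := EllP.exists_lift_of_not_formal A hl
    obtain ⟨_, hσP⟩ := EllP.smul_some_qbar σ hn'
    rw [hσP] at hfixP
    simp only [Affine.Point.some.injEq] at hfixP
    exact ⟨a, b, hl, hns, hfix a hfixP.1, hfix b hfixP.2⟩
  choose fa fb hl hns hfa hfb using hlift
  let f : S → Option (T × T) := fun P =>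
    if h : (P : EllP.QPoint W) = 0 then none else
      some (⟨_, hfa P P.2 h⟩, ⟨_, hfb P P.2 h⟩)
  have hinj : Function.Injective f := by
    intro P Q hPQ
    by_cases hP : (P : EllP.QPoint W) = 0 <;> by_cases hQ : (Q : EllP.QPoint W) = 0
    · exact Subtype.ext (hP.trans hQ.symm)
    · simp [f, hP, hQ] at hPQ
    · simp [f, hP, hQ] at hPQ
    · simp only [f, dif_neg hP, dif_neg hQ, Option.some.injEq, Prod.mk.injEq, Subtype.mk.injEq]
        at hPQ
      refine Subtype.ext ((EllP.toModel A).injective ?_)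
      exact EllLocal.eq_of_same_reduction (hl P P.2 hP) (hl Q Q.2 hQ) (hns P P.2 hP) hPQ.1 hPQ.2
        (natCast_pow_residue_ne_zero hq hA hp hqp n)
        (by rw [← map_nsmul, (hS P P.2).1, _root_.map_zero])
        (by rw [← map_nsmul, (hS Q Q.2).1, _root_.map_zero])
  refine (Nat.card_le_card_of_injective f hinj).trans ?_
  rw [Nat.card_eq_fintype_card, Fintype.card_option, Fintype.card_prod, Fintype.card_coe]
  nlinarith

end FLTAgent.MazurChain
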