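import Fermat.Agent.MazurChain.Group
import Fermat.Agent.MazurChain.Basic
import Fermat.Agent.EllTorsion.Det
import Fermat.Agent.GalCommon.Frobenius
import Fermat.Prelude.Def_ExtCitation_AdmissibleExtension

/-!
# Mazur's chain: the cyclotomic character

`cyc` is the mod `p` cyclotomic character: trivial on inertia away from `p`, nontrivial on
inertia at `p` (`exists_inertia_cyc_ne_one`). By the Weil pairing determinant, a stable line
with fixed quotient is acted on through `cyc` (`smul_eq_cyc_smul`), and a fixed point has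
cyclotomic quotient (`smul_sub_cyc_smul_mem`).
-/

set_option autoImplicit false

noncomputable section

open WeierstrassCurve WeierstrassCurve.Affine.Point
open scoped WeierstrassCurve.Affine Pointwise

namespace FLTAgent.MazurChain

local notation "Qb" => AlgebraicClosure ℚ
local notation "GQ" => (AlgebraicClosure ℚ ≃ₐ[ℚ] AlgebraicClosure ℚ)

variable (p : ℕ) [Fact p.Prime]

/-- The mod `p` cyclotomic character. -/
def cyc (σ : GQ) : ZMod p := (ExtCitation.cycloExp p σ : ZMod p)

theorem cyc_eq (σ : GQ) :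
    cyc p σ = ((modularCyclotomicCharacter Qb (EllTorsion.card_rootsOfUnity_Qbar p)
      (σ : Qb ≃+* Qb) : (ZMod p)ˣ) : ZMod p) := by
  have : NeZero p := ⟨(Fact.out : p.Prime).ne_zero⟩
  rw [cyc, ExtCitation.cycloExp, ZMod.natCast_zmod_val]

theorem cyc_eq_one_of_fix (σ : GQ) (h : ∀ t : Qb, t ^ p = 1 → σ t = t) : cyc p σ = 1 := by
  have : NeZero p := ⟨(Fact.out : p.Prime).ne_zero⟩
  have : Fact (1 < p) := ⟨(Fact.out : p.Prime).one_lt⟩
  rw [cyc_eq]
  refine (modularCyclotomicCharacter.unique _ _ _ fun t ht => ?_).symm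
  rw [ZMod.val_one, pow_one]
  refine h _ ?_
  rw [mem_rootsOfUnity] at ht
  rw [← Units.val_pow_eq_pow_val, ht, Units.val_one]

theorem fix_of_cyc_eq_one (σ : GQ) (h : cyc p σ = 1) {t : Qb} (ht : t ^ p = 1) : σ t = t := by
  have : NeZero p := ⟨(Fact.out : p.Prime).ne_zero⟩
  have : Fact (1 < p) := ⟨(Fact.out : p.Prime).one_lt⟩
  rw [cyc_eq] at h
  have := modularCyclotomicCharacter.spec Qb (EllTorsion.card_rootsOfUnity_Qbar p)
    (σ : Qb ≃+* Qb) (t := (IsUnit.of_pow_eq_one ht (Fact.out : p.Prime).ne_zero).unit)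
    (by rw [mem_rootsOfUnity, Units.ext_iff, Units.val_pow_eq_pow_val]; simpa using ht)
  rw [h, ZMod.val_one, pow_one] at this
  simpa using this

/-- Inertia away from `p` has trivial cyclotomic character. -/
theorem cyc_eq_one_of_inertia {q : ℕ} (hq : q.Prime) (hqp : q ≠ p) {A : ValuationSubring Qb}
    (hA : A.LiesOverPrime q) {σ : GQ} (hσ : σ ∈ A.inertiaSubgroupIn ℚ) : cyc p σ = 1 :=
  cyc_eq_one_of_fix p σ fun _ ht => GalCommon.inertia_apply_of_pow_eq_one hq hA
    (fun h => hqp ((Nat.prime_dvd_prime_iff_eq hq Fact.out).mp h)) hσ ht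

/-- Inertia at `p` has nontrivial cyclotomic character. -/
theorem exists_inertia_cyc_ne_one (hp2 : p ≠ 2) {A : ValuationSubring Qb}
    (hA : A.LiesOverPrime p) : ∃ σ ∈ A.inertiaSubgroupIn ℚ, cyc p σ ≠ 1 := by
  by_contra hcon
  push Not at hcon
  have hp : p.Prime := Fact.out
  have : NeZero (p : Qb) := ⟨Nat.cast_ne_zero.mpr hp.ne_zero⟩
  obtain ⟨ζ, hζ⟩ := HasEnoughRootsOfUnity.exists_primitiveRoot Qb p
  let U : Subgroup GQ :=
    { carrier := {σ | ∀ t : Qb, t ^ p = 1 → σ t = t}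
      one_mem' := fun _ _ => rfl
      mul_mem' := fun {σ τ} hσ hτ t ht => by rw [AlgEquiv.mul_apply, hτ t ht, hσ t ht]
      inv_mem' := fun {σ} hσ t ht => by
        conv_lhs => rw [← hσ t ht]
        exact σ.symm_apply_apply t }
  let F : IntermediateField ℚ Qb := IntermediateField.adjoin ℚ {ζ}
  have : FiniteDimensional ℚ F :=
    IntermediateField.adjoin.finiteDimensional (Algebra.IsIntegral.isIntegral ζ)
  have hF : F.fixingSubgroup ≤ U := by
    intro σ hσ t ht
    obtain ⟨i, -, rfl⟩ := hζ.eq_pow_of_pow_eq_one ht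
    rw [map_pow, (IntermediateField.mem_fixingSubgroup_iff F σ).mp hσ ζ
      (IntermediateField.mem_adjoin_simple_self ℚ ζ)]
  have hU : U = ⊤ := EllP.eq_top_of_inertia_le U F hF fun q hq A' hA' τ hτ t ht => by
    by_cases hqp : q = p
    · subst hqp
      obtain ⟨g, rfl⟩ := GalCommon.exists_smul_eq_of_liesOverPrime hp hA hA'
      have h1 := GalCommon.mem_inertia_conj hτ g⁻¹
      rw [inv_smul_smul, inv_inv] at h1
      have h2 := fix_of_cyc_eq_one q _ (hcon _ h1) (t := g⁻¹ t) (by rw [← map_pow, ht, map_one])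
      simp only [AlgEquiv.mul_apply] at h2
      have h3 := congrArg g h2
      have e : ∀ u : Qb, g (g⁻¹ u) = u := fun u => by
        rw [← AlgEquiv.mul_apply, mul_inv_cancel]; rfl
      simpa only [e] using h3
    · exact fix_of_cyc_eq_one p τ (cyc_eq_one_of_inertia p hq hqp hA' hτ) ht
  have hfix : ∀ σ : GQ, σ ζ = ζ := fun σ =>
    (hU ▸ Subgroup.mem_top σ : σ ∈ U) ζ hζ.pow_eq_one
  obtain ⟨r, hr⟩ := GalCommon.exists_rat_of_fixed hfix
  have hr1 : r ^ p = 1 := (algebraMap ℚ Qb).injective (by rw [map_pow, hr, hζ.pow_eq_one, map_one])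
  have : r = 1 := by
    rcases (pow_eq_one_iff_cases).mp hr1 with h | h | ⟨-, h⟩
    · exact absurd h hp.ne_zero
    · exact h
    · exact absurd h (Nat.not_even_iff_odd.mpr (hp.odd_of_ne_two hp2))
  exact hζ.ne_one hp.one_lt (by rw [← hr, this, map_one])

variable {p}

section Torsion

variable {W : WeierstrassCurve ℤ} (hΔ : W.Δ ≠ 0)

include hΔ in
theorem natCard_qTorsion (n : ℕ) (hn : n ≠ 0) : Nat.card (EllP.QTorsion W n) = n ^ 2 := by
  have := EllTorsion.isElliptic_map_rat hΔ
  exact EllTorsion.natCard_torsionBy_rat (W.map (Int.castRingHom ℚ)) n hn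

include hΔ in
theorem finrank_qTorsion : Module.finrank (ZMod p) (EllP.QTorsion W p) = 2 := by
  have := EllTorsion.isElliptic_map_rat hΔ
  exact EllTorsion.finrank_torsionBy_rat (W.map (Int.castRingHom ℚ)) p

include hΔ in
theorem det_smul (σ : GQ) :
    LinearMap.det (galoisRepModuleEnd (K := Qb) ℚ (W.map (Int.castRingHom ℚ)) p σ) = cyc p σ := by
  have := EllTorsion.isElliptic_map_rat hΔ
  rw [EllTorsion.det_galoisRepModuleEnd, cyc_eq]

include hΔ in
/-- If a point is fixed, the quotient by its line is cyclotomic. -/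
theorem smul_sub_cyc_smul_mem {x : EllP.QTorsion W p} (hx : x ≠ 0) {σ : GQ} (hσx : σ • x = x)
    (y : EllP.QTorsion W p) : σ • y - cyc p σ • y ∈ Submodule.span (ZMod p) {x} := by
  have hV := finrank_qTorsion (p := p) hΔ
  obtain ⟨z, hz⟩ : ∃ z : EllP.QTorsion W p, z ∉ Submodule.span (ZMod p) {x} := by
    by_contra h
    push Not at h
    have h1 := finrank_span_singleton (K := ZMod p) hx
    rw [Submodule.eq_top_iff'.mpr h, finrank_top, hV] at h1
    omega
  obtain ⟨b, d, hbd⟩ := exists_coeffs hV hx hz (σ • z)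
  have hdet := det_eq_mul hV (galoisRepModuleEnd (K := Qb) ℚ (W.map (Int.castRingHom ℚ)) p σ) hx hz
    (a := 1) (by rw [galoisRepModuleEnd_apply, one_smul]; exact hσx)
    (by rw [galoisRepModuleEnd_apply]; exact hbd)
  rw [det_smul hΔ, one_mul] at hdet
  obtain ⟨a, c, rfl⟩ := exists_coeffs hV hx hz y
  rw [smul_add, smul_comm σ a x, smul_comm σ c z, hσx, hbd, hdet]
  refine Submodule.mem_span_singleton.mpr ⟨a - d * a + c * b, ?_⟩
  module

include hΔ in
/-- A stable line with fixed quotient is cyclotomic. -/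
theorem smul_eq_cyc_smul {N : Submodule (ZMod p) (EllP.QTorsion W p)} (hbot : N ≠ ⊥) (htop : N ≠ ⊤)
    (hfix : ∀ σ : GQ, ∀ y : EllP.QTorsion W p, σ • y - y ∈ N) (σ : GQ) :
    ∀ z ∈ N, σ • z = cyc p σ • z := by
  have hV := finrank_qTorsion (p := p) hΔ
  obtain ⟨x, hxN, hx⟩ := N.exists_mem_ne_zero_of_ne_bot hbot
  obtain ⟨z, hz⟩ : ∃ z, z ∉ N := by
    by_contra h
    push Not at h
    exact htop (Submodule.eq_top_iff'.mpr h)
  have hspan : ∀ w ∈ N, ∃ a : ZMod p, w = a • x := by
    intro w hw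
    obtain ⟨a, b, rfl⟩ := exists_coeffs hV hx
      (fun h => hz ((Submodule.span_singleton_le_iff_mem x N).mpr hxN h)) w
    refine ⟨a, ?_⟩
    rcases eq_or_ne b 0 with rfl | hb
    · simp
    · exfalso
      apply hz
      have h1 : b • z ∈ N := by simpa using sub_mem hw (N.smul_mem a hxN)
      simpa [smul_smul, inv_mul_cancel₀ hb] using N.smul_mem b⁻¹ h1
  obtain ⟨a, ha⟩ := hspan _ (show σ • x ∈ N by simpa using add_mem (hfix σ x) hxN)
  obtain ⟨b, hb⟩ := hspan _ (hfix σ z)
  have hdet := det_eq_mul hV (galoisRepModuleEnd (K := Qb) ℚ (W.map (Int.castRingHom ℚ)) p σ) hx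
    (fun h => hz ((Submodule.span_singleton_le_iff_mem x N).mpr hxN h))
    (a := a) (b := b) (d := 1) (by rw [galoisRepModuleEnd_apply]; exact ha)
    (by rw [galoisRepModuleEnd_apply, one_smul, ← hb, sub_add_cancel])
  rw [det_smul hΔ, mul_one] at hdet
  intro w hw
  obtain ⟨c, rfl⟩ := hspan w hw
  rw [smul_comm σ c x, ha, hdet, smul_comm]

end Torsion

end FLTAgent.MazurChain
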