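import Fermat.Agent.MazurChain.Main
import Fermat.Agent.EllP.Frey

/-!
# Irreducibility of the Frey representation

`frey_no_cofixed_large`: for `p ≥ 17` the Frey curve has no stable line with fixed quotient,
granted `ExtVanishingCts`. `frey_irreducible` combines this with the cases `p = 5, 7, 11, 13`
and the step from reducibility to such a line, all three taken as hypotheses.
-/

set_option autoImplicit false

open WeierstrassCurve WeierstrassCurve.Affine.Point

namespace FLTAgent.MazurChain

/-- For `p ≥ 17` the Frey curve has no stable line with fixed quotient. -/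
theorem frey_no_cofixed_large (P : FreyPackage) (hp : 17 ≤ P.p)
    (hext : haveI := Fact.mk P.pp; ExtCitation.ExtVanishingCts P.p) :
    ¬ HasGaloisStableCofixedLine (K := AlgebraicClosure ℚ) ℚ P.freyCurve P.p := by
  have := Fact.mk P.pp
  rw [← EllP.frey_map_eq P]
  refine no_cofixed_line ?_ hext P.freyCurveInt (EllP.frey_Δ_ne_zero P)
    (EllP.frey_isSemistableModel P)
  simp only [Finset.mem_insert, Finset.mem_singleton]
  omega

/-- The Frey representation is irreducible, given the small cases and the line of a reducible one. -/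
theorem frey_irreducible (P : FreyPackage)
    (h13 : ¬ GaloisRepIsIrreducible (K := AlgebraicClosure ℚ) ℚ P.freyCurve P.p →
      HasGaloisStableCofixedLine (K := AlgebraicClosure ℚ) ℚ P.freyCurve P.p)
    (h10 : P.p = 5 ∨ P.p = 7 ∨ P.p = 13 →
      ¬ HasGaloisStableCofixedLine (K := AlgebraicClosure ℚ) ℚ P.freyCurve P.p)
    (h11 : P.p = 11 → ¬ HasGaloisStableCofixedLine (K := AlgebraicClosure ℚ) ℚ P.freyCurve P.p)
    (hext : haveI := Fact.mk P.pp; ExtCitation.ExtVanishingCts P.p) :
    GaloisRepIsIrreducible (K := AlgebraicClosure ℚ) ℚ P.freyCurve P.p := by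
  by_contra h
  have hc := h13 h
  have hp := P.pp
  have h5 := P.hp5
  rcases lt_or_ge P.p 17 with hlt | hge
  · have hne : P.p ≠ 6 ∧ P.p ≠ 8 ∧ P.p ≠ 9 ∧ P.p ≠ 10 ∧ P.p ≠ 12 ∧ P.p ≠ 14 ∧ P.p ≠ 15 ∧
        P.p ≠ 16 := by
      refine ⟨?_, ?_, ?_, ?_, ?_, ?_, ?_, ?_⟩ <;> intro e <;> rw [e] at hp <;> norm_num at hp
    rcases (by omega : P.p = 11 ∨ (P.p = 5 ∨ P.p = 7 ∨ P.p = 13)) with e | e
    · exact h11 e hc
    · exact h10 e hc
  · exact frey_no_cofixed_large P hge hext hc

end FLTAgent.MazurChain
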