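import Mathlib

/-!
# Mazur's chain: group and module lemmas

Elementary facts: `natCard_le_pow` (a group killed by `pⁿ` with socle of order at most `p` has
order at most `pⁿ`), `pow_dvd_of_sq`, and `det_eq_mul`, `exists_coeffs` for endomorphisms of a
plane with an eigenvector.
-/

set_option autoImplicit false

namespace FLTAgent.MazurChain

variable {G : Type*} [AddCommGroup G]

/-- A finite `p`-group with socle inside a group of order `≤ p` has order `≤ pⁿ` when killed by
`pⁿ`. -/
theorem natCard_le_pow {p : ℕ} (N : AddSubgroup G) [Finite N] (hN : Nat.card N ≤ p) :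
    ∀ (n : ℕ) (B : AddSubgroup G) [Finite B], (∀ x ∈ B, p ^ n • x = 0) →
      (∀ x ∈ B, p • x = 0 → x ∈ N) → Nat.card B ≤ p ^ n := by
  intro n
  induction n with
  | zero =>
    intro B _ hB _
    have : B = ⊥ := (AddSubgroup.eq_bot_iff_forall B).mpr fun x hx => by simpa using hB x hx
    simp [this]
  | succ n ih =>
    intro B hfin hB hsoc
    let f : B →+ G := (nsmulAddMonoidHom p).comp B.subtype
    have hker : Nat.card f.ker ≤ p := by
      refine le_trans (Nat.card_le_card_of_injective
        (fun x : f.ker => (⟨((x : B) : G), hsoc _ (x : B).2 x.2⟩ : N)) fun x y h => ?_) hN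
      exact Subtype.ext (Subtype.ext (Subtype.ext_iff.mp h :))
    have hle : f.range ≤ B := by
      rintro _ ⟨x, rfl⟩
      exact B.nsmul_mem x.2 p
    have : Finite f.range := Finite.of_injective _ (AddSubgroup.inclusion_injective hle)
    have hrange : Nat.card f.range ≤ p ^ n := by
      refine ih f.range ?_ fun x hx => hsoc x (hle hx)
      rintro _ ⟨x, rfl⟩
      show p ^ n • p • (x : G) = 0
      rw [smul_smul, ← pow_succ]
      exact hB x x.2
    rw [AddSubgroup.card_eq_card_quotient_mul_card_addSubgroup f.ker,
      Nat.card_congr (QuotientAddGroup.quotientKerEquivRange f).toEquiv, pow_succ]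
    exact Nat.mul_le_mul hrange hker

/-- If `(a - 1)²` is divisible by `p^(2n)`, then `a - 1` is divisible by `pⁿ`. -/
theorem pow_dvd_of_sq {p : ℕ} {n : ℕ} {b : ℤ} (h : (p : ℤ) ^ (2 * n) ∣ b * b) :
    (p : ℤ) ^ n ∣ b := by
  rw [mul_comm 2 n, pow_mul, ← pow_two b] at h
  exact (Int.pow_dvd_pow_iff two_ne_zero).mp h

variable {K V : Type*} [Field K] [AddCommGroup V] [Module K V]

/-- The determinant of an endomorphism of a plane in triangular form. -/
theorem det_eq_mul (hV : Module.finrank K V = 2) (f : Module.End K V) {x y : V} (hx : x ≠ 0)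
    (hy : y ∉ Submodule.span K {x}) {a b d : K} (hfx : f x = a • x) (hfy : f y = b • x + d • y) :
    LinearMap.det f = a * d := by
  have hli : LinearIndependent K ![x, y] := by
    rw [LinearIndependent.pair_iff' hx]
    intro r hr
    exact hy (Submodule.mem_span_singleton.mpr ⟨r, hr⟩)
  set e := basisOfLinearIndependentOfCardEqFinrank hli (by simp [hV]) with he
  have he0 : e 0 = x := by simp [he]
  have he1 : e 1 = y := by simp [he]
  rw [← LinearMap.det_toMatrix e f, Matrix.det_fin_two]
  simp only [LinearMap.toMatrix_apply]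
  rw [he0, he1, hfx, hfy, ← he0, ← he1]
  simp

/-- A vector outside a line spans the plane with it. -/
theorem exists_coeffs (hV : Module.finrank K V = 2) {x y : V} (hx : x ≠ 0)
    (hy : y ∉ Submodule.span K {x}) (z : V) : ∃ a b : K, z = a • x + b • y := by
  have hli : LinearIndependent K ![x, y] := by
    rw [LinearIndependent.pair_iff' hx]
    intro r hr
    exact hy (Submodule.mem_span_singleton.mpr ⟨r, hr⟩)
  set e := basisOfLinearIndependentOfCardEqFinrank hli (by simp [hV]) with he
  refine ⟨e.repr z 0, e.repr z 1, ?_⟩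
  conv_lhs => rw [← e.sum_repr z]
  simp [he, Fin.sum_univ_two]

end FLTAgent.MazurChain
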