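import Fermat.Agent.MazurChain.Stage
import Fermat.Prelude.Def_FLTPrelim_CofixedLine

/-!
# Mazur's chain of isogenies

Main result `no_cofixed_line`: for `p ∉ {2, 3, 5, 7, 13}`, granted `ExtVanishingCts p`, a
semistable curve over `ℚ` has no stable line with fixed quotient in its `p`-torsion. Such a line
would start an infinite chain (`nonempty_stage`); at stage `2 n` Galois moves `E[pⁿ]` only
inside a group of order at most `pⁿ` (`map_smul_sub_eq_zero`), so a good Frobenius at `q` would
fix at least `pⁿ` points, more than `q² + 1` for large `n`.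
-/

set_option autoImplicit false

noncomputable section

open WeierstrassCurve WeierstrassCurve.Affine.Point
open scoped WeierstrassCurve.Affine Pointwise

namespace FLTAgent.MazurChain

local notation "Qb" => AlgebraicClosure ℚ
local notation "GQ" => (AlgebraicClosure ℚ ≃ₐ[ℚ] AlgebraicClosure ℚ)

variable {p : ℕ} [Fact p.Prime]

/-- The datum of a cofixed line. -/
theorem exists_datum (hp11 : 11 ≤ p) (W : WeierstrassCurve ℤ) (hΔ : W.Δ ≠ 0)
    (hss : W.IsSemistableModel)
    (h : HasGaloisStableCofixedLine (K := Qb) ℚ (W.map (Int.castRingHom ℚ)) p) :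
    ∃ D : Datum p, D.W = W := by
  have hp : p.Prime := Fact.out
  obtain ⟨N, -, hbot, htop, hfix⟩ := h
  change Submodule (ZMod p) (EllP.QTorsion W p) at N
  have hV : Nat.card (EllP.QTorsion W p) = p ^ 2 := natCard_qTorsion hΔ p hp.ne_zero
  have hN : Nat.card N = p :=
    ((EllP.submodule_card_cases hV N).resolve_left hbot).resolve_right htop
  have hformal : ∀ A : ValuationSubring Qb, A.LiesOverPrime p → EllP.torsionE1 A = N := by
    intro A hA
    obtain ⟨σ, hσ, hχ⟩ := exists_inertia_cyc_ne_one p (by omega) hA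
    have hle : N ≤ EllP.torsionE1 A := by
      intro z hz
      have hz0 : p ^ 1 • (z : EllP.QPoint W) = 0 := by
        rw [pow_one]
        simp
      have he := smul_eq_cyc_smul hΔ hbot htop hfix σ z hz
      have hmove : ∀ w : EllP.QTorsion W p, w ∈ N → σ • w - w ∈ EllP.torsionE0 A := fun w _ =>
        EllP.inertiaMovesIntoE0_of_semistable hp hA hΔ (hss p hp) (hp.odd_of_ne_two (by omega))
          σ hσ w
      have h0 : z ∈ EllP.torsionE0 A := by
        have h1 := hmove z hz
        rw [he, ← one_smul (ZMod p) z, smul_smul, ← sub_smul, mul_one] at h1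
        have h2 := Submodule.smul_mem _ (cyc p σ - 1)⁻¹ h1
        rwa [smul_smul, inv_mul_cancel₀ (sub_ne_zero.mpr hχ), one_smul] at h2
      have h1 := EllP.smul_sub_mem_torsionE1 hp hA hσ h0
      rw [he, ← one_smul (ZMod p) z, smul_smul, ← sub_smul, mul_one] at h1
      have h2 := Submodule.smul_mem _ (cyc p σ - 1)⁻¹ h1
      rwa [smul_smul, inv_mul_cancel₀ (sub_ne_zero.mpr hχ), one_smul] at h2
    refine (EllP.eq_of_le_line hV hN hle).resolve_right fun htop' => ?_
    refine EllP.not_inertiaStable_line_of_formal W hΔ hp (by omega) A hA ?_ N hN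
      fun τ _ z hz => by simpa using add_mem (hfix τ z) hz
    intro z
    have hz : z ∈ EllP.torsionE1 A := htop' ▸ Submodule.mem_top
    exact (EllP.mem_E1_iff A).1 hz
  refine ⟨{
    W := W
    hΔ := hΔ
    ss := hss
    N := N.toAddSubgroup.map (EllP.QTorsion W p).subtype.toAddMonoidHom
    card_N := ?_
    tors_N := ?_
    fix := ?_
    formal := ?_ }, rfl⟩
  · exact (Nat.card_congr (AddSubgroup.equivMapOfInjective N.toAddSubgroup _
      Subtype.val_injective).toEquiv.symm).trans hN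
  · rintro _ ⟨x, -, rfl⟩
    rw [mem_tors]
    simp
  · intro σ x hx
    refine ⟨σ • (⟨x, ?_⟩ : EllP.QTorsion W p) - ⟨x, ?_⟩, hfix σ _, rfl⟩ <;>
      (rw [Submodule.mem_torsionBy_iff, natCast_zsmul]; exact hx)
  · intro A hA
    ext x
    constructor
    · rintro ⟨hx, hx1⟩
      refine ⟨⟨x, by rw [Submodule.mem_torsionBy_iff, natCast_zsmul]; exact hx⟩, ?_, rfl⟩
      change (_ : EllP.QTorsion W p) ∈ N
      rw [← hformal A hA]
      exact hx1
    · rintro ⟨z, hz, rfl⟩
      change z ∈ N at hz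
      rw [← hformal A hA] at hz
      refine ⟨?_, hz⟩
      show p • (z : EllP.QPoint W) = 0
      simp

variable (D : Datum p) (hp11 : 11 ≤ p)

include hp11 in
theorem not_dvd_c₄ {l : ℕ} (hl : l = 2 ∨ l = 3) : ¬ (l : ℤ) ∣ D.W.c₄ := by
  have hp : p.Prime := Fact.out
  have hlp : l.Prime := by rcases hl with rfl | rfl <;> norm_num
  refine D.ss l hlp ?_
  by_contra hgood
  obtain ⟨A, hA⟩ := GalCommon.exists_liesOverPrime hlp
  obtain ⟨σ, hσ⟩ := GalCommon.exists_isFrobeniusAt hlp hA
  set f : EllP.QPoint D.W →+ EllP.QPoint D.W :=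
    DistribSMul.toAddMonoidHom (EllP.QPoint D.W) σ - AddMonoidHom.id _
  have h := natCard_eq_mul f (tors D.W p)
  rw [natCard_tors D.hΔ p hp.ne_zero] at h
  have : Finite D.N := Nat.finite_of_card_ne_zero (by rw [D.card_N]; exact hp.ne_zero)
  have hrange : Nat.card ((tors D.W p).map f) ≤ p := by
    refine (AddSubgroup.card_le_of_le (K := D.N) ?_).trans D.card_N.le
    rintro _ ⟨x, hx, rfl⟩
    exact D.fix σ x hx
  have hker := natCard_le_sq_succ hlp hA hp (by omega) hσ (n := 1)
    ((f.ker ⊓ tors D.W p : AddSubgroup (EllP.QPoint D.W)) : Set (EllP.QPoint D.W))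
    fun x hx => ⟨by rw [pow_one]; exact hx.2, mem_e0At_of_good hlp hA hgood _,
      sub_eq_zero.mp hx.1⟩
  rw [SetLike.coe_sort_coe] at hker
  have hl3 : l ^ 2 + 1 ≤ 10 := by rcases hl with rfl | rfl <;> norm_num
  nlinarith

include hp11 in
theorem nonempty_stage_one : Nonempty (Stage D 1) := by
  have hp : p.Prime := Fact.out
  have hNstab : ∀ σ : GQ, ∀ x ∈ D.N, σ • x ∈ D.N := fun σ x hx => by
    simpa using add_mem (D.fix σ x (D.tors_N hx)) hx
  obtain ⟨W', ψ, hΔ', hψ, hker, hss', h23⟩ := Isog.exists_quotient hp (by omega) D.W D.hΔ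
    (fun l hl _ h => D.ss l hl h.1 h.2) (fun l hl _ => not_dvd_c₄ D hp11 hl) D.N D.card_N hNstab
  have : Finite D.N := Nat.finite_of_card_ne_zero (by rw [D.card_N]; exact hp.ne_zero)
  have := finite_tors D.hΔ p hp.ne_zero
  have himg : Nat.card ((tors D.W p).map ψ) = p := by
    have h := natCard_eq_mul ψ (tors D.W p)
    rw [hker, inf_eq_left.mpr D.tors_N, D.card_N, natCard_tors D.hΔ p hp.ne_zero, pow_two] at h
    exact (Nat.eq_of_mul_eq_mul_left hp.pos h).symm
  obtain ⟨x, hx, hxN⟩ : ∃ x ∈ tors D.W p, x ∉ D.N := by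
    by_contra h
    push Not at h
    have h1 := AddSubgroup.card_le_of_le (K := D.N) h
    rw [natCard_tors D.hΔ p hp.ne_zero, D.card_N, pow_two] at h1
    nlinarith
  have hP0 : ψ x ≠ 0 := fun h => hxN (hker ▸ h : x ∈ D.N)
  have hPt : p • ψ x = 0 := by rw [← map_nsmul, show p • x = 0 from hx, _root_.map_zero]
  have hmap : (tors D.W p).map ψ = AddSubgroup.zmultiples (ψ x) := by
    have : Finite ((tors D.W p).map ψ) :=
      Nat.finite_of_card_ne_zero (by rw [himg]; exact hp.ne_zero)
    refine (AddSubgroup.eq_of_le_of_card_ge (AddSubgroup.zmultiples_le.mpr (AddSubgroup.mem_map_of_mem ψ hx)) ?_).symm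
    rw [himg, Nat.card_zmultiples, addOrderOf_eq_prime hPt hP0]
  exact ⟨{
    W := W'
    hΔ := hΔ'
    φ := ψ
    equiv := hψ
    ss := hss'
    unit23 := fun l hl => h23 l hl (by omega)
    card_ker := by rw [pow_one, hker, D.card_N]
    ker_tors := by rw [pow_one, hker]; exact D.tors_N
    ker_inf := by rw [hker]; exact inf_le_left
    ker_formal := fun A hA => by
      rw [hker, ← D.formal A hA]
      exact inf_le_right
    P := ψ x
    P_ne := hP0
    P_tors := hPt
    fixed := fun σ => by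
      rw [← hψ, ← sub_eq_zero, ← map_sub]
      exact (hker.ge (D.fix σ x hx) : σ • x - x ∈ ψ.ker)
    map_tors := hmap
    g := ψ x
    map_pow := by rw [pow_one]; exact hmap }⟩

variable (hp' : p ∉ ({2, 3, 5, 7, 13} : Finset ℕ))

include hp11 hp' in
theorem nonempty_stage (hext : ExtCitation.ExtVanishingCts p) :
    ∀ m, 1 ≤ m → Nonempty (Stage D m) := by
  intro m hm
  induction m, hm using Nat.le_induction with
  | base => exact nonempty_stage_one D hp11
  | succ m hm ih =>
    obtain ⟨S⟩ := ih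
    exact S.exists_next hp11 hp' hext hm

include hp11 in
/-- The stage `2 n` forces the Galois group to move `E[pⁿ]` only inside the kernel. -/
theorem map_smul_sub_eq_zero {n : ℕ} (S : Stage D (2 * n)) (σ : GQ) {y : EllP.QPoint D.W}
    (hy : p ^ n • y = 0) : S.φ (σ • y - y) = 0 := by
  have hp : p.Prime := Fact.out
  have hodd : ∀ k : ℕ, Odd (p ^ k) := fun k => (hp.odd_of_ne_two (by omega)).pow
  let U : Subgroup GQ :=
    { carrier := {σ | ∀ y : EllP.QPoint D.W, p ^ n • y = 0 → S.φ (σ • y - y) = 0}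
      one_mem' := fun y _ => by rw [one_smul, sub_self, _root_.map_zero]
      mul_mem' := fun {σ τ} hσ hτ y hy => by
        have e : (σ * τ) • y - y = σ • (τ • y - y) + (σ • y - y) := by
          rw [mul_smul, smul_sub (A := EllP.QPoint D.W)]
          abel
        rw [e, map_add, hσ y hy, add_zero]
        exact S.ker_stable σ (hτ y hy)
      inv_mem' := fun {σ} hσ y hy => by
        have e : σ⁻¹ • y - y = σ⁻¹ • (-(σ • y - y)) := by
          rw [smul_neg (A := EllP.QPoint D.W), smul_sub (A := EllP.QPoint D.W), inv_smul_smul,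
            neg_sub]
        rw [e]
        exact S.ker_stable _ (by rw [map_neg, hσ y hy, _root_.neg_zero]) }
  have := EllTorsion.isElliptic_map_rat D.hΔ
  obtain ⟨L, hL, hLfix⟩ := EllTorsion.exists_finiteLevel_smul_eq
    (D.W.map (Int.castRingHom ℚ)) (p ^ n) (pow_ne_zero n hp.ne_zero)
  have hLU : L.fixingSubgroup ≤ U := by
    intro τ hτ z hz
    have := congrArg Subtype.val (hLfix τ ((IntermediateField.mem_fixingSubgroup_iff L τ).mp hτ)
      ⟨z, by rw [Submodule.mem_torsionBy_iff, natCast_zsmul]; exact hz⟩)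
    change τ • z = z at this
    rw [this, sub_self, _root_.map_zero]
  have hU : U = ⊤ := EllP.eq_top_of_inertia_le U L hLU fun q hq A hA τ hτ z hz => by
    have hsq : ∀ w : EllP.QPoint D.W, p ^ (2 * n) • w = 0 →
        S.φ (τ • (τ • w - w) - (τ • w - w)) = 0 := by
      intro w hw
      by_cases hqp : q = p
      · subst hqp
        have h1 := smul_sub_mem_e0At hp hA D.hΔ (D.ss q hp) hτ (hodd (2 * n)) hw
        have h2 := smul_sub_mem_e1At hp hA hτ h1
        have := finite_tors D.hΔ (q ^ (2 * n)) (pow_ne_zero _ hp.ne_zero)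
        set B := tors D.W (q ^ (2 * n)) ⊓ e1At D.W A
        have : Finite B := Finite.of_injective _
          (AddSubgroup.inclusion_injective (inf_le_left : B ≤ tors D.W (q ^ (2 * n))))
        have : Finite D.N := Nat.finite_of_card_ne_zero (by rw [D.card_N]; exact hp.ne_zero)
        have hcard : Nat.card B ≤ q ^ (2 * n) :=
          natCard_le_pow D.N D.card_N.le (2 * n) B (fun x hx => hx.1)
            fun x hx hx0 => (D.formal A hA).le ⟨hx0, hx.2⟩
        have hB : S.φ.ker = B := AddSubgroup.eq_of_le_of_card_ge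
          (le_inf S.ker_tors (S.ker_formal A hA)) (by rw [S.card_ker]; exact hcard)
        exact (hB.ge ⟨nsmul_smul_sub (nsmul_smul_sub hw), h2⟩ :)
      · rw [smul_sub_smul_sub hq hA D.hΔ (D.ss q hq) hp (by omega) hqp hτ hw, _root_.map_zero]
    obtain ⟨w, hw, hwg⟩ : S.g ∈ (tors D.W (p ^ (2 * n))).map S.φ :=
      S.map_pow ▸ AddSubgroup.mem_zmultiples S.g
    rw [SetLike.mem_coe, mem_tors] at hw
    obtain ⟨a, ha⟩ : τ • S.g ∈ AddSubgroup.zmultiples S.g := by
      rw [← hwg, ← S.equiv, hwg, ← S.map_pow]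
      exact ⟨τ • w, by rw [SetLike.mem_coe, mem_tors, ← smul_nsmul_point, hw,
        smul_zero (A := EllP.QPoint D.W) τ], rfl⟩
    change a • S.g = τ • S.g at ha
    have hord : addOrderOf S.g = p ^ (2 * n) := by
      have h := natCard_eq_mul S.φ (tors D.W (p ^ (2 * n)))
      rw [inf_eq_left.mpr S.ker_tors, S.card_ker, S.map_pow, Nat.card_zmultiples,
        natCard_tors D.hΔ _ (pow_ne_zero _ hp.ne_zero), pow_two] at h
      exact (Nat.eq_of_mul_eq_mul_left (pow_pos hp.pos _) h).symm
    have h0 := hsq w hw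
    rw [map_sub, S.equiv, map_sub, S.equiv, hwg, ← ha, smul_sub (A := EllP.QPoint S.W),
      algEquiv_smul_zsmul, ← ha, smul_smul] at h0
    have h1 : ((a - 1) * (a - 1)) • S.g = 0 := by
      rw [← h0]
      module
    rw [← addOrderOf_dvd_iff_zsmul_eq_zero, hord, Nat.cast_pow] at h1
    have hdvd := pow_dvd_of_sq h1
    obtain ⟨k, hk⟩ : S.φ z ∈ AddSubgroup.zmultiples S.g := by
      rw [← S.map_pow]
      refine ⟨z, ?_, rfl⟩
      rw [SetLike.mem_coe, mem_tors, two_mul, pow_add, mul_smul, hz, nsmul_zero]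
    change k • S.g = S.φ z at hk
    have hk0 : ((p : ℤ) ^ n * k) • S.g = 0 := by
      rw [mul_smul, hk, ← Nat.cast_pow, natCast_zsmul, ← map_nsmul, hz, _root_.map_zero]
    rw [← addOrderOf_dvd_iff_zsmul_eq_zero, hord, Nat.cast_pow, two_mul, pow_add,
      mul_dvd_mul_iff_left (pow_ne_zero n (Int.natCast_ne_zero.mpr hp.ne_zero))] at hk0
    rw [map_sub, S.equiv, ← hk, algEquiv_smul_zsmul, ← ha, smul_smul, ← sub_smul,
      ← addOrderOf_dvd_iff_zsmul_eq_zero, hord, Nat.cast_pow, two_mul, pow_add,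
      show k * a - k = k * (a - 1) by ring]
    exact mul_dvd_mul hk0 hdvd
  exact (hU ▸ Subgroup.mem_top σ : σ ∈ U) y hy

omit D hp11 hp' in
/-- **Mazur.** A semistable curve has no stable line with fixed quotient in its `p`-torsion for
`p ∉ {2, 3, 5, 7, 13}`. -/
theorem no_cofixed_line (hp : p ∉ ({2, 3, 5, 7, 13} : Finset ℕ))
    (hext : ExtCitation.ExtVanishingCts p) (W : WeierstrassCurve ℤ) (hΔ : W.Δ ≠ 0)
    (hss : W.IsSemistableModel) :
    ¬ HasGaloisStableCofixedLine (K := Qb) ℚ (W.map (Int.castRingHom ℚ)) p := by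
  intro h
  have hpp : p.Prime := Fact.out
  have hp11 : 11 ≤ p := by
    simp only [Finset.mem_insert, Finset.mem_singleton, not_or] at hp
    by_contra hlt
    interval_cases p <;> first | omega | norm_num at hpp
  obtain ⟨D, -⟩ := exists_datum hp11 W hΔ hss h
  obtain ⟨q, hqlt, hq⟩ := Nat.exists_infinite_primes (D.W.Δ.natAbs + p + 1)
  have hgood : ¬ (q : ℤ) ∣ D.W.Δ := fun hd => by
    have := Nat.le_of_dvd (Int.natAbs_pos.mpr D.hΔ) (Int.natCast_dvd.mp hd)
    omega
  obtain ⟨n, hn⟩ := pow_unbounded_of_one_lt (q ^ 2 + 1) hpp.one_lt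
  have hn1 : 1 ≤ 2 * n := by
    rcases Nat.eq_zero_or_pos n with rfl | h
    · simp at hn
    · omega
  obtain ⟨S⟩ := nonempty_stage D hp11 hp hext (2 * n) hn1
  obtain ⟨A, hA⟩ := GalCommon.exists_liesOverPrime hq
  obtain ⟨σ, hσ⟩ := GalCommon.exists_isFrobeniusAt hq hA
  set f : EllP.QPoint D.W →+ EllP.QPoint D.W :=
    DistribSMul.toAddMonoidHom (EllP.QPoint D.W) σ - AddMonoidHom.id _
  have := finite_tors D.hΔ (p ^ n) (pow_ne_zero _ hpp.ne_zero)
  set B := S.φ.ker ⊓ tors D.W (p ^ n)
  have : Finite B := Finite.of_injective _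
    (AddSubgroup.inclusion_injective (inf_le_right : B ≤ tors D.W (p ^ n)))
  have : Finite D.N := Nat.finite_of_card_ne_zero (by rw [D.card_N]; exact hpp.ne_zero)
  have hB : Nat.card B ≤ p ^ n := natCard_le_pow D.N D.card_N.le n B (fun x hx => hx.2)
    fun x hx hx0 => S.ker_inf ⟨hx.1, hx0⟩
  have hrange : Nat.card ((tors D.W (p ^ n)).map f) ≤ p ^ n := by
    refine (AddSubgroup.card_le_of_le (K := B) ?_).trans hB
    rintro _ ⟨x, hx, rfl⟩
    exact ⟨map_smul_sub_eq_zero D hp11 S σ hx, nsmul_smul_sub hx⟩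
  have hker := natCard_le_sq_succ hq hA hpp (by omega) hσ (n := n)
    ((f.ker ⊓ tors D.W (p ^ n) : AddSubgroup (EllP.QPoint D.W)) : Set (EllP.QPoint D.W))
    fun x hx => ⟨hx.2, mem_e0At_of_good hq hA hgood _, sub_eq_zero.mp hx.1⟩
  rw [SetLike.coe_sort_coe] at hker
  have hmul := natCard_eq_mul f (tors D.W (p ^ n))
  rw [natCard_tors D.hΔ _ (pow_ne_zero _ hpp.ne_zero)] at hmul
  nlinarith [pow_pos hpp.pos n]

end FLTAgent.MazurChain
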