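import Fermat.Agent.MazurChain.Chi
import Fermat.Agent.Isog.Quotient
import Fermat.Agent.Mazur.Assembly
import Fermat.Agent.EllTorsion.Card
import Fermat.Prelude.Def_ExtCitation_AdmissibleExtension_v2
import Fermat.Prelude.Def_FLTPrelim_Modularity

/-!
# Mazur's chain: the stages

A `Datum` is a semistable model with a formal line `N` in its `p`-torsion with fixed quotient;
a `Stage m` is a Galois equivariant quotient by a cyclic subgroup of order `p ^ m`, formal at
`p`, with a nonzero rational `p`-torsion point on the quotient. `Stage.exists_next` is one step: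
the rational point misses the zero component at the bad primes other than `p`, so the
`p`-torsion is an admissible extension, which splits by the hypothesis
`ExtCitation.ExtVanishingCts`; the quotient by the complement (`Isog.exists_quotient`) is the
next stage.
-/

set_option autoImplicit false

noncomputable section

open WeierstrassCurve WeierstrassCurve.Affine.Point
open scoped WeierstrassCurve.Affine Pointwise

namespace FLTAgent.MazurChain

local notation "Qb" => AlgebraicClosure ℚ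
local notation "GQ" => (AlgebraicClosure ℚ ≃ₐ[ℚ] AlgebraicClosure ℚ)

/-- Points killed by `n`. -/
def tors (W : WeierstrassCurve ℤ) (n : ℕ) : AddSubgroup (EllP.QPoint W) :=
  (nsmulAddMonoidHom n).ker

theorem mem_tors {W : WeierstrassCurve ℤ} {n : ℕ} {x : EllP.QPoint W} :
    x ∈ tors W n ↔ n • x = 0 := Iff.rfl

theorem natCard_tors {W : WeierstrassCurve ℤ} (hΔ : W.Δ ≠ 0) (n : ℕ) (hn : n ≠ 0) :
    Nat.card (tors W n) = n ^ 2 :=
  (Nat.card_congr (Equiv.subtypeEquivRight fun x => by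
    rw [mem_tors, Submodule.mem_torsionBy_iff, natCast_zsmul])).trans (natCard_qTorsion hΔ n hn)

theorem finite_tors {W : WeierstrassCurve ℤ} (hΔ : W.Δ ≠ 0) (n : ℕ) (hn : n ≠ 0) :
    Finite (tors W n) :=
  Nat.finite_of_card_ne_zero (natCard_tors hΔ n hn ▸ pow_ne_zero 2 hn)

theorem exists_nsmul_eq {W : WeierstrassCurve ℤ} (hΔ : W.Δ ≠ 0) {n : ℕ} (hn : n ≠ 0)
    (x : EllP.QPoint W) : ∃ y, n • y = x := by
  have := EllTorsion.isElliptic_map_rat hΔ
  have : (((W.map (Int.castRingHom ℚ))⁄Qb)).IsElliptic :=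
    inferInstanceAs ((W.map (Int.castRingHom ℚ)).map (algebraMap ℚ Qb)).IsElliptic
  exact EllTorsion.nsmul_surjective n hn x

theorem natCard_eq_mul {G H : Type*} [AddCommGroup G] [AddCommGroup H] (f : G →+ H)
    (B : AddSubgroup G) :
    Nat.card B = Nat.card (f.ker ⊓ B : AddSubgroup G) * Nat.card (B.map f) := by
  rw [AddSubgroup.card_eq_card_quotient_mul_card_addSubgroup (f.comp B.subtype).ker,
    Nat.card_congr (QuotientAddGroup.quotientKerEquivRange (f.comp B.subtype)).toEquiv,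
    AddMonoidHom.range_comp, B.range_subtype, mul_comm]
  congr 1
  exact Nat.card_congr ⟨fun x => ⟨x.1.1, x.2, x.1.2⟩, fun x => ⟨⟨x.1, x.2.2⟩, x.2.1⟩,
    fun _ => rfl, fun _ => rfl⟩

theorem mem_zmultiples_iff_smul {W : WeierstrassCurve ℤ} {x z : EllP.QPoint W}
    (hx : x ∈ AddSubgroup.zmultiples z) (σ : GQ) (hz : σ • z = z) : σ • x = x := by
  obtain ⟨k, rfl⟩ := hx
  show σ • k • z = k • z
  rw [algEquiv_smul_zsmul, hz]

variable {p : ℕ} [Fact p.Prime]

/-- A semistable curve with a line in its `p`-torsion whose quotient is fixed. -/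
structure Datum (p : ℕ) [Fact p.Prime] where
  W : WeierstrassCurve ℤ
  hΔ : W.Δ ≠ 0
  ss : W.IsSemistableModel
  N : AddSubgroup (EllP.QPoint W)
  card_N : Nat.card N = p
  tors_N : N ≤ tors W p
  fix : ∀ σ : GQ, ∀ x ∈ tors W p, σ • x - x ∈ N
  formal : ∀ A : ValuationSubring Qb, A.LiesOverPrime p → tors W p ⊓ e1At W A = N

/-- A stage of the chain. -/
structure Stage (D : Datum p) (m : ℕ) where
  W : WeierstrassCurve ℤ
  hΔ : W.Δ ≠ 0
  φ : EllP.QPoint D.W →+ EllP.QPoint W
  equiv : ∀ (σ : GQ) (x : EllP.QPoint D.W), φ (σ • x) = σ • φ x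
  ss : Isog.SemistableAway W p
  unit23 : ∀ l : ℕ, l = 2 ∨ l = 3 → ¬ (l : ℤ) ∣ W.c₄
  card_ker : Nat.card φ.ker = p ^ m
  ker_tors : φ.ker ≤ tors D.W (p ^ m)
  ker_inf : φ.ker ⊓ tors D.W p ≤ D.N
  ker_formal : ∀ A : ValuationSubring Qb, A.LiesOverPrime p → φ.ker ≤ e1At D.W A
  P : EllP.QPoint W
  P_ne : P ≠ 0
  P_tors : p • P = 0
  fixed : ∀ σ : GQ, σ • P = P
  map_tors : (tors D.W p).map φ = AddSubgroup.zmultiples P
  g : EllP.QPoint W
  map_pow : (tors D.W (p ^ m)).map φ = AddSubgroup.zmultiples g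

variable {D : Datum p}

theorem Stage.ker_stable {m : ℕ} (S : Stage D m) (σ : GQ) {x : EllP.QPoint D.W}
    (hx : S.φ x = 0) : S.φ (σ • x) = 0 := by
  rw [S.equiv, hx, smul_zero (A := EllP.QPoint S.W) σ]

/-- The points of `E[p^(m+1)]` cover the `p`-torsion of the stage. -/
theorem Stage.exists_preimage {m : ℕ} (S : Stage D m) {z : EllP.QPoint S.W} (hz : p • z = 0) :
    ∃ y, p ^ (m + 1) • y = 0 ∧ S.φ y = z := by
  have hp : p.Prime := Fact.out
  set B := (tors S.W p).comap S.φ with hB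
  have hBtors : B ≤ tors D.W (p ^ (m + 1)) := by
    intro y hy
    have h1 : S.φ (p • y) = 0 := by rw [map_nsmul]; exact hy
    have := S.ker_tors h1
    rw [mem_tors] at this ⊢
    rw [pow_succ, mul_smul]
    exact this
  have hkerB : S.φ.ker ≤ B := fun y hy => by
    show p • S.φ y = 0
    rw [show S.φ y = 0 from hy, nsmul_zero]
  have hBker : B.map (nsmulAddMonoidHom p) = S.φ.ker := by
    apply le_antisymm
    · rintro _ ⟨y, hy, rfl⟩
      show S.φ (p • y) = 0
      rw [map_nsmul]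
      exact hy
    · intro x hx
      obtain ⟨y, rfl⟩ := exists_nsmul_eq D.hΔ hp.ne_zero x
      refine ⟨y, ?_, rfl⟩
      show p • S.φ y = 0
      rw [← map_nsmul]
      exact hx
  have htorsB : tors D.W p ≤ B := fun y hy => by
    show p • S.φ y = 0
    rw [← map_nsmul, show p • y = 0 from hy, _root_.map_zero]
  have hcardB : Nat.card B = p ^ m * p ^ 2 := by
    rw [natCard_eq_mul (nsmulAddMonoidHom p) B, hBker, S.card_ker,
      show (nsmulAddMonoidHom p).ker ⊓ B = tors D.W p from inf_eq_left.mpr htorsB,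
      natCard_tors D.hΔ p hp.ne_zero, mul_comm]
  rw [natCard_eq_mul S.φ B, inf_eq_left.mpr hkerB, S.card_ker] at hcardB
  have himg : B.map S.φ = tors S.W p := by
    have := finite_tors S.hΔ p hp.ne_zero
    refine AddSubgroup.eq_of_le_of_card_ge (AddSubgroup.map_comap_le _ _) ?_
    rw [natCard_tors S.hΔ p hp.ne_zero,
      Nat.eq_of_mul_eq_mul_left (pow_pos hp.pos m) hcardB]
  obtain ⟨y, hy, rfl⟩ : z ∈ B.map S.φ := himg ▸ hz
  exact ⟨y, hBtors hy, rfl⟩

theorem Stage.addOrderOf_P {m : ℕ} (S : Stage D m) : addOrderOf S.P = p :=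
  addOrderOf_eq_prime S.P_tors S.P_ne

/-- The rational point misses `E₀` at `2` and `3`. -/
theorem Stage.not_mem_e0At_two_three (hp11 : 11 ≤ p) {m : ℕ} (S : Stage D m) {l : ℕ}
    (hl : l = 2 ∨ l = 3) {A : ValuationSubring Qb} (hA : A.LiesOverPrime l) :
    S.P ∉ e0At S.W A := by
  intro h
  have hlp : l.Prime := by rcases hl with rfl | rfl <;> norm_num
  obtain ⟨σ, hσ⟩ := GalCommon.exists_isFrobeniusAt hlp hA
  have := natCard_le_sq_succ hlp hA (p := p) Fact.out (by omega) hσ (n := 1)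
    (AddSubgroup.zmultiples S.P : Set (EllP.QPoint S.W)) fun x hx => ⟨?_, ?_, ?_⟩
  · rw [SetLike.coe_sort_coe, Nat.card_zmultiples, S.addOrderOf_P] at this
    rcases hl with rfl | rfl <;> omega
  · rw [pow_one]
    obtain ⟨k, rfl⟩ := hx
    show p • k • S.P = 0
    rw [smul_comm, S.P_tors, zsmul_zero]
  · exact (AddSubgroup.zmultiples_le.mpr h) hx
  · exact mem_zmultiples_iff_smul hx σ (S.fixed σ)

/-- The rational point misses `E₀` at every bad prime away from `p`. -/
theorem Stage.not_mem_e0At (hp' : p ∉ ({2, 3, 5, 7, 13} : Finset ℕ)) (hp11 : 11 ≤ p) {m : ℕ}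
    (S : Stage D m) {l : ℕ} (hl : l.Prime) (hlp : l ≠ p) (hlΔ : (l : ℤ) ∣ S.W.Δ)
    {A : ValuationSubring Qb} (hA : A.LiesOverPrime l) : S.P ∉ e0At S.W A := by
  have hbad : ∀ l : ℕ, l = 2 ∨ l = 3 → (l : ℤ) ∣ S.W.Δ := by
    intro l hl'
    have hlprime : l.Prime := by rcases hl' with rfl | rfl <;> norm_num
    obtain ⟨A', hA'⟩ := GalCommon.exists_liesOverPrime hlprime
    by_contra h
    exact S.not_mem_e0At_two_three hp11 hl' hA' (mem_e0At_of_good hlprime hA' h _)
  rw [← inZeroComponentAt_iff]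
  exact Mazur.not_inZeroComponentAt_of_two_three Fact.out hp' S.W S.hΔ S.P S.fixed S.addOrderOf_P
    (by exact_mod_cast hbad 2 (Or.inl rfl)) (by exact_mod_cast S.unit23 2 (Or.inl rfl))
    (fun A h => mt inZeroComponentAt_iff.mp (S.not_mem_e0At_two_three hp11 (Or.inl rfl) h))
    (by exact_mod_cast hbad 3 (Or.inr rfl)) (by exact_mod_cast S.unit23 3 (Or.inr rfl))
    (fun A h => mt inZeroComponentAt_iff.mp (S.not_mem_e0At_two_three hp11 (Or.inr rfl) h))
    hl hlp hlΔ (fun h => S.ss l hl hlp ⟨hlΔ, h⟩) A hA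

section Step

variable {m : ℕ} (S : Stage D m)

/-- The rational point in the `p`-torsion. -/
def Stage.Pt : EllP.QTorsion S.W p :=
  ⟨S.P, by rw [Submodule.mem_torsionBy_iff, natCast_zsmul, S.P_tors]⟩

theorem Stage.Pt_ne : S.Pt ≠ 0 := fun h => S.P_ne (congrArg Subtype.val h)

theorem Stage.smul_Pt (σ : GQ) : σ • S.Pt = S.Pt := Subtype.ext (S.fixed σ)

/-- The rational line. -/
def Stage.line : Submodule (ZMod p) (EllP.QTorsion S.W p) := Submodule.span (ZMod p) {S.Pt}

theorem Stage.smul_of_mem_line (σ : GQ) {x : EllP.QTorsion S.W p} (hx : x ∈ S.line) :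
    σ • x = x := by
  obtain ⟨a, rfl⟩ := Submodule.mem_span_singleton.mp hx
  rw [smul_comm, S.smul_Pt]

theorem Stage.card_line : Nat.card S.line = p := by
  rw [Stage.line, Module.natCard_eq_pow_finrank (K := ZMod p), finrank_span_singleton S.Pt_ne,
    Nat.card_zmod, pow_one]

/-- The image of `E₁[p^(m+1)]` in the `p`-torsion of the stage. -/
def Stage.formalLine (A : ValuationSubring Qb) : Submodule (ZMod p) (EllP.QTorsion S.W p) :=
  AddSubgroup.toZModSubmodule p (((tors D.W (p ^ (m + 1)) ⊓ e1At D.W A).map S.φ).comap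
    (EllP.QTorsion S.W p).subtype.toAddMonoidHom)

theorem Stage.mem_formalLine {A : ValuationSubring Qb} {z : EllP.QTorsion S.W p} :
    z ∈ S.formalLine A ↔ ∃ y, (p ^ (m + 1) • y = 0 ∧ y ∈ e1At D.W A) ∧
      S.φ y = (z : EllP.QPoint S.W) := Iff.rfl

theorem Stage.formalLine_stable {A : ValuationSubring Qb} {σ : GQ}
    (hσ : σ ∈ A.decompositionSubgroup ℚ) {z : EllP.QTorsion S.W p} (hz : z ∈ S.formalLine A) :
    σ • z ∈ S.formalLine A := by
  rw [Stage.mem_formalLine] at hz ⊢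
  obtain ⟨y, ⟨hy, hy1⟩, hyz⟩ := hz
  exact ⟨σ • y, ⟨by rw [← smul_nsmul_point, hy, smul_zero (A := EllP.QPoint D.W) σ],
    smul_mem_e1At hσ hy1⟩, by rw [S.equiv, hyz]; rfl⟩

theorem Stage.line_inf_formalLine {A : ValuationSubring Qb} (hA : A.LiesOverPrime p)
    {z : EllP.QTorsion S.W p} (hz : z ∈ S.line) (hz' : z ∈ S.formalLine A) : z = 0 := by
  obtain ⟨a, rfl⟩ := Submodule.mem_span_singleton.mp hz
  obtain ⟨y, ⟨-, hy1⟩, hyz⟩ := S.mem_formalLine.mp hz'
  have hmem : ((a • S.Pt : EllP.QTorsion S.W p) : EllP.QPoint S.W) ∈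
      (tors D.W p).map S.φ := by
    rw [S.map_tors, ← ZMod.natCast_zmod_val a, Nat.cast_smul_eq_nsmul]
    exact AddSubgroup.nsmul_mem _ (AddSubgroup.mem_zmultiples S.P) _
  obtain ⟨x, hx, hxz⟩ := hmem
  have hyx : y - x ∈ S.φ.ker := by
    rw [AddMonoidHom.mem_ker, map_sub, hyz, hxz, sub_self]
  have hx1 : x ∈ e1At D.W A := by
    simpa using sub_mem hy1 (S.ker_formal A hA hyx)
  have hxN : x ∈ D.N := (D.formal A hA).le ⟨hx, hx1⟩
  have hN : x ∈ S.φ.ker := by
    by_cases hm : S.φ.ker ⊓ tors D.W p = ⊥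
    · exfalso
      have h := natCard_eq_mul S.φ (tors D.W p)
      rw [S.map_tors, Nat.card_zmultiples, S.addOrderOf_P, hm,
        natCard_tors D.hΔ p (Fact.out : p.Prime).ne_zero, AddSubgroup.card_bot, one_mul] at h
      nlinarith [(Fact.out : p.Prime).two_le]
    · have hle := S.ker_inf
      have : Finite D.N := Nat.finite_of_card_ne_zero
        (by rw [D.card_N]; exact (Fact.out : p.Prime).ne_zero)
      have : S.φ.ker ⊓ tors D.W p = D.N := by
        refine AddSubgroup.eq_of_le_of_card_ge hle ?_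
        have hdvd := AddSubgroup.card_dvd_of_le hle
        rw [D.card_N, Nat.dvd_prime Fact.out] at hdvd
        rcases hdvd with h | h
        · exact absurd (AddSubgroup.card_eq_one.mp h) hm
        · rw [h, D.card_N]
      exact (this.ge hxN).1
  exact Subtype.ext (hxz.symm.trans hN)

variable (hp11 : 11 ≤ p) (hp' : p ∉ ({2, 3, 5, 7, 13} : Finset ℕ))

include hp11 in
theorem Stage.formalLine_ne_bot {A : ValuationSubring Qb} (hA : A.LiesOverPrime p) :
    S.formalLine A ≠ ⊥ := by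
  have hp : p.Prime := Fact.out
  obtain ⟨σ, hσ, hχ⟩ := exists_inertia_cyc_ne_one p (by omega) hA
  obtain ⟨x, hx⟩ : ∃ x : EllP.QTorsion S.W p, x ∉ S.line := by
    by_contra h
    push Not at h
    have h1 := finrank_span_singleton (K := ZMod p) S.Pt_ne
    rw [show Submodule.span (ZMod p) {S.Pt} = ⊤ from Submodule.eq_top_iff'.mpr h, finrank_top,
      finrank_qTorsion S.hΔ] at h1
    omega
  obtain ⟨y, hy, hyx⟩ := S.exists_preimage (z := (x : EllP.QPoint S.W))
    (by simp)
  have hodd : Odd (p ^ (m + 1)) := (hp.odd_of_ne_two (by omega)).pow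
  have h2 := smul_sub_mem_e0At hp hA D.hΔ (D.ss p hp) hσ hodd hy
  have h3 := smul_sub_mem_e1At hp hA hσ h2
  have hz : σ • (σ • x - x) - (σ • x - x) ∈ S.formalLine A := by
    refine S.mem_formalLine.mpr ⟨_, ⟨nsmul_smul_sub (nsmul_smul_sub hy), h3⟩, ?_⟩
    simp only [map_sub, S.equiv, hyx]
    rfl
  have hcy := smul_sub_cyc_smul_mem S.hΔ S.Pt_ne (S.smul_Pt σ) x
  obtain ⟨a, ha⟩ := Submodule.mem_span_singleton.mp hcy
  intro hbot
  rw [hbot, Submodule.mem_bot] at hz
  set c := cyc p σ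
  have e : σ • x - x = a • S.Pt + (c - 1) • x := by
    rw [ha, sub_smul, one_smul]
    abel
  rw [e, smul_add, smul_comm σ a, S.smul_Pt, smul_comm σ (c - 1),
    eq_add_of_sub_eq ha.symm] at hz
  apply hx
  have hne : (c - 1) * (c - 1) ≠ 0 := mul_self_ne_zero.mpr (sub_ne_zero.mpr hχ)
  have e2 : ((c - 1) * (c - 1)) • x = ((-(c - 1)) * a) • S.Pt := by
    linear_combination (norm := module) hz
  have := Submodule.smul_mem S.line ((c - 1) * (c - 1))⁻¹
    (Submodule.smul_mem S.line ((-(c - 1)) * a) (Submodule.mem_span_singleton_self _))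
  rwa [← e2, smul_smul, inv_mul_cancel₀ hne, one_smul] at this

include hp11 in
theorem Stage.isCompl_formalLine {A : ValuationSubring Qb} (hA : A.LiesOverPrime p) :
    IsCompl S.line (S.formalLine A) ∧ Nat.card (S.formalLine A) = p := by
  have hV : Nat.card (EllP.QTorsion S.W p) = p ^ 2 :=
    natCard_qTorsion S.hΔ p (Fact.out : p.Prime).ne_zero
  have hdisj : Disjoint S.line (S.formalLine A) :=
    Submodule.disjoint_def.mpr fun z h h' => S.line_inf_formalLine hA h h'
  have hcard : Nat.card (S.formalLine A) = p := by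
    rcases EllP.submodule_card_cases hV (S.formalLine A) with h | h | h
    · exact absurd h (S.formalLine_ne_bot hp11 hA)
    · exact h
    · exact absurd (S.line_inf_formalLine hA (Submodule.mem_span_singleton_self _)
        (h ▸ Submodule.mem_top)) S.Pt_ne
  refine ⟨⟨hdisj, codisjoint_iff.mpr ?_⟩, hcard⟩
  refine (EllP.eq_of_le_line hV S.card_line le_sup_left).resolve_left fun h => ?_
  obtain ⟨z, hz, hz0⟩ := (S.formalLine A).exists_mem_ne_zero_of_ne_bot
    (S.formalLine_ne_bot hp11 hA)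
  exact hz0 (S.line_inf_formalLine hA (h ▸ le_sup_right (a := S.line) hz) hz)

include hp' hp11 in
theorem Stage.isAdmissible :
    ExtCitation.IsAdmissibleExtensionCts p (EllP.QTorsion S.W p) S.line where
  stable σ x hx := by rw [S.smul_of_mem_line σ hx]; exact hx
  fixed_sub σ x hx := S.smul_of_mem_line σ hx
  cyclo_quot σ x := smul_sub_cyc_smul_mem S.hΔ S.Pt_ne (S.smul_Pt σ) x
  card_sub := S.card_line
  card_total := natCard_qTorsion S.hΔ p (Fact.out : p.Prime).ne_zero
  unramified_outside := by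
    intro l hl hlp A hA σ hσ x
    have hp : p.Prime := Fact.out
    have hx : p ^ 1 • (x : EllP.QPoint S.W) = 0 := by
      rw [pow_one]
      simp
    by_cases hlΔ : (l : ℤ) ∣ S.W.Δ
    swap
    · exact Subtype.ext
        (smul_eq_self_of_mem_e0At hl hA hp hlp hσ (mem_e0At_of_good hl hA hlΔ _) hx)
    have h1 : σ • x - x ∈ S.line := by
      have := smul_sub_cyc_smul_mem S.hΔ S.Pt_ne (S.smul_Pt σ) x
      rwa [cyc_eq_one_of_inertia p hl hlp hA hσ, one_smul] at this
    have h2 : σ • x - x ∈ EllP.torsionE0 A :=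
      smul_sub_mem_e0At hl hA S.hΔ (fun h h' => S.ss l hl hlp ⟨h, h'⟩) hσ
        ((hp.odd_of_ne_two (by omega)).pow (n := 1)) hx
    have h3 : ¬ S.line ≤ EllP.torsionE0 A := fun h =>
      S.not_mem_e0At hp' hp11 hl hlp hlΔ hA
        (h (Submodule.mem_span_singleton_self S.Pt))
    have h4 : σ • x - x ∈ S.line ⊓ EllP.torsionE0 A := ⟨h1, h2⟩
    rw [EllP.line_inf_eq_bot (natCard_qTorsion S.hΔ p hp.ne_zero) S.card_line h3,
      Submodule.mem_bot, sub_eq_zero] at h4
    exact h4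
  locally_split A hA :=
    ⟨S.formalLine A, fun σ hσ z hz => S.formalLine_stable hσ hz,
      (S.isCompl_formalLine hp11 hA).1⟩
  open_kernel := by
    have := EllTorsion.isElliptic_map_rat S.hΔ
    have h := EllTorsion.isOpen_ker_galoisRepModuleEnd (S.W.map (Int.castRingHom ℚ)) p
      (Fact.out : p.Prime).ne_zero
    convert h using 1
    ext σ
    exact ⟨fun h => LinearMap.ext h, fun h v => LinearMap.congr_fun h v⟩

include hp11 in
/-- A global complement of the rational line is the formal line at every place over `p`. -/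
theorem Stage.eq_formalLine {C : Submodule (ZMod p) (EllP.QTorsion S.W p)}
    (hstab : ∀ σ : GQ, ∀ x ∈ C, σ • x ∈ C) (hC : IsCompl S.line C)
    {A : ValuationSubring Qb} (hA : A.LiesOverPrime p) : C = S.formalLine A := by
  obtain ⟨hL, -⟩ := S.isCompl_formalLine hp11 hA
  obtain ⟨σ, hσ, hχ⟩ := exists_inertia_cyc_ne_one p (by omega) hA
  have hdec : σ ∈ A.decompositionSubgroup ℚ := by
    obtain ⟨τ, -, rfl⟩ := hσ
    exact τ.2
  have heig : ∀ (C' : Submodule (ZMod p) (EllP.QTorsion S.W p)), IsCompl S.line C' →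
      (∀ x ∈ C', σ • x ∈ C') → ∀ x ∈ C', σ • x = cyc p σ • x := by
    intro C' hC' hst x hx
    have h1 := smul_sub_cyc_smul_mem S.hΔ S.Pt_ne (S.smul_Pt σ) x
    have h2 : σ • x - cyc p σ • x ∈ C' := sub_mem (hst x hx) (C'.smul_mem _ hx)
    exact sub_eq_zero.mp (Submodule.disjoint_def.mp hC'.disjoint _ h1 h2)
  have hle : ∀ (C₁ C₂ : Submodule (ZMod p) (EllP.QTorsion S.W p)), IsCompl S.line C₂ →
      (∀ x ∈ C₂, σ • x ∈ C₂) → (∀ x ∈ C₁, σ • x = cyc p σ • x) → C₁ ≤ C₂ := by
    intro C₁ C₂ hC₂ hst h1 x hx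
    obtain ⟨l, hl, r, hr, rfl⟩ := Submodule.mem_sup.mp
      (hC₂.sup_eq_top.symm ▸ (Submodule.mem_top (x := x)))
    have h2 := h1 _ hx
    rw [smul_add, S.smul_of_mem_line σ hl, heig C₂ hC₂ hst r hr, smul_add, add_left_inj] at h2
    have h3 : (cyc p σ - 1) • l = 0 := by rw [sub_smul, ← h2, one_smul, sub_self]
    rcases smul_eq_zero.mp h3 with h | h
    · exact absurd (sub_eq_zero.mp h) hχ
    · rw [h, zero_add]
      exact hr
  have hLst : ∀ x ∈ S.formalLine A, σ • x ∈ S.formalLine A := fun x hx =>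
    S.formalLine_stable hdec hx
  exact le_antisymm (hle _ _ hL hLst (heig C hC (hstab σ)))
    (hle _ _ hC (hstab σ) (heig _ hL hLst))

include hp' hp11 S in
/-- **One step of the chain.** -/
theorem Stage.exists_next (hext : ExtCitation.ExtVanishingCts p) (hm : 1 ≤ m) :
    Nonempty (Stage D (m + 1)) := by
  have hp : p.Prime := Fact.out
  obtain ⟨C', hstab, hcompl⟩ := hext _ S.line (S.isAdmissible hp11 hp')
  obtain ⟨A₀, hA₀⟩ := GalCommon.exists_liesOverPrime hp
  set c := C'.toAddSubgroup.map (EllP.QTorsion S.W p).subtype.toAddMonoidHom with hc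
  have hccard : Nat.card c = p := by
    refine (Nat.card_congr
      (AddSubgroup.equivMapOfInjective C'.toAddSubgroup _ Subtype.val_injective).toEquiv.symm).trans ?_
    rw [S.eq_formalLine hp11 hstab hcompl hA₀]
    exact (S.isCompl_formalLine hp11 hA₀).2
  have hctors : c ≤ tors S.W p := by
    rintro _ ⟨x, -, rfl⟩
    rw [mem_tors]
    simp
  have hcstab : ∀ σ : GQ, ∀ x ∈ c, σ • x ∈ c := by
    rintro σ _ ⟨x, hx, rfl⟩
    exact ⟨σ • x, hstab σ x hx, rfl⟩
  obtain ⟨W', ψ, hΔ', hψ, hker, hss', h23⟩ :=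
    Isog.exists_quotient hp (by omega) S.W S.hΔ S.ss (fun l hl _ => S.unit23 l hl) c hccard hcstab
  set φ' := ψ.comp S.φ with hφ'
  have hker' : φ'.ker = c.comap S.φ := by
    rw [hφ', ← AddMonoidHom.comap_ker, hker]
  have hPnot : S.P ∉ c := by
    rintro ⟨x, hx, hxP⟩
    have : x = S.Pt := Subtype.ext hxP
    exact S.Pt_ne (Submodule.disjoint_def.mp hcompl.disjoint _
      (Submodule.mem_span_singleton_self _) (this ▸ hx))
  have hleker : S.φ.ker ≤ φ'.ker := fun y hy => by
    show ψ (S.φ y) = 0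
    rw [show S.φ y = 0 from hy, _root_.map_zero]
  obtain ⟨yg, hyg, hg⟩ : S.g ∈ (tors D.W (p ^ m)).map S.φ :=
    S.map_pow ▸ AddSubgroup.mem_zmultiples S.g
  obtain ⟨y₁, rfl⟩ := exists_nsmul_eq D.hΔ hp.ne_zero yg
  have hPg : ∃ j : ℤ, ψ S.P = j • φ' y₁ := by
    have h1 : S.P ∈ AddSubgroup.zmultiples S.g := by
      rw [← S.map_pow]
      have h2 : S.P ∈ (tors D.W p).map S.φ := S.map_tors ▸ AddSubgroup.mem_zmultiples S.P
      refine AddSubgroup.map_mono (fun x hx => ?_) h2
      rw [mem_tors] at hx ⊢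
      obtain ⟨i, rfl⟩ := Nat.exists_eq_add_of_le hm
      rw [pow_add, pow_one, mul_comm, mul_smul, hx, nsmul_zero]
    obtain ⟨j, hj⟩ := h1
    refine ⟨j * p, ?_⟩
    rw [← show j • S.g = S.P from hj, ← hg, map_zsmul, map_nsmul, map_nsmul, mul_smul,
      natCast_zsmul, hφ', AddMonoidHom.comp_apply]
  refine ⟨{
    W := W'
    hΔ := hΔ'
    φ := φ'
    equiv := fun σ x => by rw [hφ', AddMonoidHom.comp_apply, S.equiv, hψ]; rfl
    ss := hss'
    unit23 := fun l hl => h23 l hl (by omega)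
    card_ker := ?_
    ker_tors := ?_
    ker_inf := ?_
    ker_formal := ?_
    P := ψ S.P
    P_ne := fun h => hPnot (hker ▸ h : S.P ∈ c)
    P_tors := by rw [← map_nsmul, S.P_tors, _root_.map_zero]
    fixed := fun σ => by rw [← hψ, S.fixed]
    map_tors := ?_
    g := φ' y₁
    map_pow := ?_ }⟩
  · rw [hker', natCard_eq_mul S.φ (c.comap S.φ), inf_eq_left.mpr (hker' ▸ hleker), S.card_ker,
      pow_succ]
    congr 1
    refine Eq.trans ?_ hccard
    refine congrArg (fun H : AddSubgroup (EllP.QPoint S.W) => Nat.card H) ?_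
    refine AddSubgroup.map_comap_eq_self ?_
    intro z hz
    obtain ⟨y, -, rfl⟩ := S.exists_preimage (hctors hz)
    exact ⟨y, rfl⟩
  · rw [hker']
    intro y hy
    have h1 : p • S.φ y = 0 := hctors hy
    rw [← map_nsmul] at h1
    have h2 : p ^ m • p • y = 0 := S.ker_tors h1
    rw [mem_tors, pow_succ, mul_smul]
    exact h2
  · rintro x ⟨hx, hxp⟩
    refine S.ker_inf ⟨?_, hxp⟩
    obtain ⟨k, hk⟩ : S.φ x ∈ AddSubgroup.zmultiples S.P := S.map_tors ▸ ⟨x, hxp, rfl⟩
    obtain ⟨z, hz, hzx⟩ : S.φ x ∈ c := hker ▸ hx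
    have hzl : z ∈ S.line := by
      rw [show z = k • S.Pt from Subtype.ext (hzx.trans hk.symm)]
      exact zsmul_mem (Submodule.mem_span_singleton_self _) k
    rw [Submodule.disjoint_def.mp hcompl.disjoint z hzl hz] at hzx
    exact hzx.symm
  · intro A hA y hy
    rw [hker'] at hy
    obtain ⟨z, hz, hzy⟩ := hy
    change z ∈ C' at hz
    rw [S.eq_formalLine hp11 hstab hcompl hA] at hz
    obtain ⟨y', ⟨-, hy'⟩, he⟩ := S.mem_formalLine.mp hz
    have h1 : y - y' ∈ S.φ.ker := by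
      rw [AddMonoidHom.mem_ker, map_sub, he, sub_eq_zero]
      exact hzy.symm
    simpa using add_mem (S.ker_formal A hA h1) hy'
  · rw [hφ', ← AddSubgroup.map_map, S.map_tors, AddMonoidHom.map_zmultiples]
  · apply le_antisymm
    · rintro _ ⟨y, hy, rfl⟩
      have hpy : p • y ∈ tors D.W (p ^ m) := by
        rw [mem_tors, ← mul_smul, ← pow_succ]
        exact hy
      obtain ⟨k, hk⟩ : S.φ (p • y) ∈ AddSubgroup.zmultiples S.g := S.map_pow ▸ ⟨_, hpy, rfl⟩
      set z := S.φ (y - k • y₁) with hz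
      have hzt : p • z = 0 := by
        rw [hz, map_sub, map_zsmul, nsmul_sub, ← map_nsmul, smul_comm, ← map_nsmul, hg, ← hk]
        exact sub_self _
      obtain ⟨l, hl, r, hr, hlr⟩ := Submodule.mem_sup.mp (hcompl.sup_eq_top.symm ▸
        (Submodule.mem_top (x := (⟨z, by rw [Submodule.mem_torsionBy_iff, natCast_zsmul, hzt]⟩ :
          EllP.QTorsion S.W p))))
      obtain ⟨a, ha⟩ := Submodule.mem_span_singleton.mp hl
      obtain ⟨j, hj⟩ := hPg
      refine ⟨k + (a.val : ℤ) * j, ?_⟩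
      have hψr : ψ (r : EllP.QPoint S.W) = 0 :=
        AddMonoidHom.mem_ker.mp (hker.ge ⟨r, hr, rfl⟩)
      have hψl : ψ (l : EllP.QPoint S.W) = ((a.val : ℤ) * j) • φ' y₁ := by
        rw [← ha, ← ZMod.natCast_zmod_val a, Nat.cast_smul_eq_nsmul, ZMod.natCast_zmod_val]
        show ψ (a.val • S.P) = _
        rw [map_nsmul, hj, mul_smul, natCast_zsmul]
      have hψz : ψ z = ψ (l : EllP.QPoint S.W) := by
        rw [← show ((l + r : EllP.QTorsion S.W p) : EllP.QPoint S.W) = z from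
          congrArg Subtype.val hlr, Submodule.coe_add, map_add, hψr, add_zero]
      show (k + (a.val : ℤ) * j) • φ' y₁ = φ' y
      rw [add_zsmul, ← hψl, ← hψz, hz, hφ', AddMonoidHom.comp_apply, AddMonoidHom.comp_apply,
        map_sub, map_sub, map_zsmul, map_zsmul, add_sub_cancel]
    · rw [AddSubgroup.zmultiples_le]
      exact ⟨y₁, by rw [SetLike.mem_coe, mem_tors, pow_succ, mul_smul]; exact hyg, rfl⟩

end Step

end FLTAgent.MazurChain
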